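/-
S59 / HGD (helper20), part 1: absolute irreducibility and base change.

For a residual representation `ρ` over a field `k`:
* `s59hgd_absIrr_iff_span` : `ρ` is absolutely irreducible iff the `k`-span of `ρ(G)` is `End_k V`
  (`⇒` is Burnside, `S53.Burnside.span_range_eq_top`);
* `s59hgd_irr_baseChange`, `s59hgd_irr_baseChangeAlong`, `s59hgd_absIrr_baseChangeAlong` :
  an absolutely irreducible representation stays (absolutely) irreducible after every extension
  of the field of coefficients;
* `s59hgd_absIrr_of_isEquiv` : absolute irreducibility is invariant under isomorphism.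
-/
import Mathlib
import Fermat.Prelude.Def_GaloisRep_Residual
import Fermat.Prelude.Def_GaloisRep_ResidualEquiv
import Fermat.Agent.S53.BurnsideRep

set_option autoImplicit false
set_option linter.unusedSectionVars false

namespace Fermat.Agent.S59

open Module TensorProduct

section LinAlg

variable {K M ι : Type*} [Field K] [AddCommGroup M] [Module K M] [Fintype ι] [DecidableEq ι]

/-- the elementary endomorphism `B i₀ ↦ B j`, `B i ↦ 0` (`i ≠ i₀`) -/
noncomputable def s59hgdElem (B : Basis ι K M) (i₀ j : ι) : M →ₗ[K] M :=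
  B.constr K fun i => if i = i₀ then B j else 0

theorem s59hgdElem_apply (B : Basis ι K M) (i₀ j i : ι) :
    s59hgdElem B i₀ j (B i) = if i = i₀ then B j else 0 := by
  rw [s59hgdElem, Basis.constr_basis]

/-- every endomorphism is a combination of elementary ones -/
theorem s59hgd_eq_sum_elem (B : Basis ι K M) (g : M →ₗ[K] M) :
    g = ∑ i₀, ∑ j, B.repr (g (B i₀)) j • s59hgdElem B i₀ j := by
  refine B.ext fun i => ?_
  rw [LinearMap.sum_apply]
  simp only [LinearMap.sum_apply, LinearMap.smul_apply, s59hgdElem_apply]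
  rw [Finset.sum_eq_single i]
  · simp only [if_true]
    exact (B.sum_repr (g (B i))).symm
  · intro i₀ _ hne
    refine Finset.sum_eq_zero fun j _ => ?_
    rw [if_neg (Ne.symm hne), smul_zero]
  · intro h
    exact absurd (Finset.mem_univ i) h

/-- a subspace stable under all elementary endomorphisms is `⊥` or `⊤` -/
theorem s59hgd_bot_or_top (B : Basis ι K M) (W : Submodule K M)
    (h : ∀ i₀ j, ∀ x ∈ W, s59hgdElem B i₀ j x ∈ W) : W = ⊥ ∨ W = ⊤ := by
  by_cases hW : W = ⊥
  · exact Or.inl hW
  refine Or.inr ?_
  obtain ⟨w, hw, hw0⟩ := (Submodule.ne_bot_iff W).mp hW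
  have hrepr : ∃ i₀, B.repr w i₀ ≠ 0 := by
    by_contra hcon
    have hcon' : ∀ i, B.repr w i = 0 := fun i => by
      by_contra hne
      exact hcon ⟨i, hne⟩
    apply hw0
    rw [← B.sum_repr w]
    exact Finset.sum_eq_zero fun i _ => by rw [hcon' i, zero_smul]
  obtain ⟨i₀, hi₀⟩ := hrepr
  have hB : ∀ j, B j ∈ W := by
    intro j
    have h1 := h i₀ j w hw
    have h2 : s59hgdElem B i₀ j w = B.repr w i₀ • B j := by
      conv_lhs => rw [← B.sum_repr w]
      rw [map_sum]
      simp only [map_smul, s59hgdElem_apply]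
      rw [Finset.sum_eq_single i₀]
      · rw [if_pos rfl]
      · intro i _ hne
        rw [if_neg hne, smul_zero]
      · intro h
        exact absurd (Finset.mem_univ i₀) h
    rw [h2] at h1
    have h3 := W.smul_mem (B.repr w i₀)⁻¹ h1
    rwa [smul_smul, inv_mul_cancel₀ hi₀, one_smul] at h3
  rw [eq_top_iff, ← B.span_eq, Submodule.span_le]
  rintro _ ⟨j, rfl⟩
  exact hB j

end LinAlg

section BaseChange

variable {k k' V : Type*} [Field k] [Field k'] [Algebra k k'] [AddCommGroup V] [Module k V]

/-- the base change of an elementary endomorphism is elementary -/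
theorem s59hgd_elem_baseChange {ι : Type*} [Fintype ι] [DecidableEq ι] (b : Basis ι k V)
    (i₀ j : ι) :
    (s59hgdElem b i₀ j).baseChange k' = s59hgdElem (b.baseChange k') i₀ j := by
  refine (b.baseChange k').ext fun i => ?_
  rw [s59hgdElem_apply, Basis.baseChange_apply, LinearMap.baseChange_tmul, s59hgdElem_apply,
    Basis.baseChange_apply]
  split_ifs
  · rfl
  · rw [TensorProduct.tmul_zero]

/-- if the `r i` span `End_k V`, the base change of every endomorphism is in the `k'`-span of
the base changes of the `r i` -/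
theorem s59hgd_baseChange_mem_span {ι' : Type*} (r : ι' → Module.End k V)
    (hspan : Submodule.span k (Set.range r) = ⊤) (f : Module.End k V) :
    f.baseChange k' ∈ Submodule.span k' (Set.range fun i => (r i).baseChange k') := by
  have hf : f ∈ Submodule.span k (Set.range r) := by rw [hspan]; exact Submodule.mem_top
  induction hf using Submodule.span_induction with
  | mem f hf =>
    obtain ⟨i, rfl⟩ := hf
    exact Submodule.subset_span ⟨i, rfl⟩
  | zero =>
    rw [LinearMap.baseChange_zero]
    exact Submodule.zero_mem _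
  | add f g _ _ hf hg =>
    rw [LinearMap.baseChange_add]
    exact Submodule.add_mem _ hf hg
  | smul c f _ hf =>
    rw [LinearMap.baseChange_smul, ← algebraMap_smul k' c (f.baseChange k')]
    exact Submodule.smul_mem _ _ hf

/-- if the `r i` span `End_k V` (`V` finite-dimensional), their base changes span
`End_{k'} (k' ⊗ V)` -/
theorem s59hgd_span_baseChange [Module.Finite k V] {ι' : Type*} (r : ι' → Module.End k V)
    (hspan : Submodule.span k (Set.range r) = ⊤) :
    Submodule.span k' (Set.range fun i => (r i).baseChange k') = ⊤ := by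
  classical
  let b := Module.finBasis k V
  rw [eq_top_iff]
  intro g _
  rw [s59hgd_eq_sum_elem (b.baseChange k') g]
  refine Submodule.sum_mem _ fun i₀ _ => Submodule.sum_mem _ fun j _ =>
    Submodule.smul_mem _ _ ?_
  rw [← s59hgd_elem_baseChange]
  exact s59hgd_baseChange_mem_span r hspan _

/-- a subspace of `k' ⊗ V` stable under the base changes of the `r i` (which span `End_k V`)
is `⊥` or `⊤` -/
theorem s59hgd_bot_or_top_baseChange [Module.Finite k V] {ι' : Type*} (r : ι' → Module.End k V)
    (hspan : Submodule.span k (Set.range r) = ⊤) (W : Submodule k' (k' ⊗[k] V))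
    (hW : ∀ i, ∀ x ∈ W, (r i).baseChange k' x ∈ W) : W = ⊥ ∨ W = ⊤ := by
  classical
  let b := Module.finBasis k V
  have hall : ∀ g ∈ Submodule.span k' (Set.range fun i => (r i).baseChange k'),
      ∀ x ∈ W, g x ∈ W := by
    intro g hg
    induction hg using Submodule.span_induction with
    | mem g hg =>
      obtain ⟨i, rfl⟩ := hg
      exact hW i
    | zero =>
      intro x _
      rw [LinearMap.zero_apply]
      exact W.zero_mem
    | add f g _ _ hf hg =>
      intro x hx
      rw [LinearMap.add_apply]
      exact W.add_mem (hf x hx) (hg x hx)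
    | smul c f _ hf =>
      intro x hx
      rw [LinearMap.smul_apply]
      exact W.smul_mem c (hf x hx)
  refine s59hgd_bot_or_top (b.baseChange k') W fun i₀ j x hx => ?_
  refine hall _ ?_ x hx
  rw [← s59hgd_elem_baseChange]
  exact s59hgd_baseChange_mem_span r hspan _

end BaseChange

section Rep

variable {k : Type} [Field k]

/-- the span criterion: sufficiency -/
theorem s59hgd_irr_baseChange_of_span (ρ : ResidualGaloisRep k)
    (hspan : Submodule.span k (Set.range ρ.ρ) = ⊤) (k' : Type) [Field k'] [Algebra k k'] :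
    (ρ.baseChange k').IsIrreducible := by
  intro W hW
  exact s59hgd_bot_or_top_baseChange (fun σ => ρ.ρ σ) hspan W fun σ x hx => hW σ x hx

/-- **Span criterion**: `ρ` is absolutely irreducible iff `ρ(G)` spans `End_k V`. -/
theorem s59hgd_absIrr_iff_span (ρ : ResidualGaloisRep k) :
    ρ.IsAbsolutelyIrreducible ↔ Submodule.span k (Set.range ρ.ρ) = ⊤ :=
  ⟨fun h => Fermat.Agent.S53.Burnside.span_range_eq_top ρ h,
    fun h => s59hgd_irr_baseChange_of_span ρ h (AlgebraicClosure k)⟩

/-- an absolutely irreducible representation is irreducible after every base change -/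
theorem s59hgd_irr_baseChange (ρ : ResidualGaloisRep k) (habs : ρ.IsAbsolutelyIrreducible)
    (k' : Type) [Field k'] [Algebra k k'] : (ρ.baseChange k').IsIrreducible :=
  s59hgd_irr_baseChange_of_span ρ ((s59hgd_absIrr_iff_span ρ).mp habs) k'

/-- the span of the base change -/
theorem s59hgd_span_rep_baseChange (ρ : ResidualGaloisRep k)
    (hspan : Submodule.span k (Set.range ρ.ρ) = ⊤) (k' : Type) [Field k'] [Algebra k k'] :
    Submodule.span k' (Set.range (ρ.baseChange k').ρ) = ⊤ :=
  s59hgd_span_baseChange (fun σ => ρ.ρ σ) hspan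

/-- an absolutely irreducible representation is absolutely irreducible after every base
change -/
theorem s59hgd_absIrr_baseChange (ρ : ResidualGaloisRep k) (habs : ρ.IsAbsolutelyIrreducible)
    (k' : Type) [Field k'] [Algebra k k'] : (ρ.baseChange k').IsAbsolutelyIrreducible :=
  (s59hgd_absIrr_iff_span _).mpr
    (s59hgd_span_rep_baseChange ρ ((s59hgd_absIrr_iff_span ρ).mp habs) k')

theorem s59hgd_irr_baseChangeAlong (ρ : ResidualGaloisRep k) (habs : ρ.IsAbsolutelyIrreducible)
    {k' : Type} [Field k'] (φ : k →+* k') : (ρ.baseChangeAlong φ).IsIrreducible :=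
  letI : Algebra k k' := φ.toAlgebra
  s59hgd_irr_baseChange ρ habs k'

theorem s59hgd_absIrr_baseChangeAlong (ρ : ResidualGaloisRep k)
    (habs : ρ.IsAbsolutelyIrreducible) {k' : Type} [Field k'] (φ : k →+* k') :
    (ρ.baseChangeAlong φ).IsAbsolutelyIrreducible :=
  letI : Algebra k k' := φ.toAlgebra
  s59hgd_absIrr_baseChange ρ habs k'

/-- an absolutely irreducible representation is irreducible -/
theorem s59hgd_irr_of_absIrr (ρ : ResidualGaloisRep k) (habs : ρ.IsAbsolutelyIrreducible) :
    ρ.IsIrreducible := by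
  have hspan := (s59hgd_absIrr_iff_span ρ).mp habs
  intro W hW
  classical
  let b := Module.finBasis k ρ.V
  have hall : ∀ g ∈ Submodule.span k (Set.range ρ.ρ), ∀ x ∈ W, g x ∈ W := by
    intro g hg
    induction hg using Submodule.span_induction with
    | mem g hg =>
      obtain ⟨σ, rfl⟩ := hg
      exact hW σ
    | zero =>
      intro x _
      rw [LinearMap.zero_apply]
      exact W.zero_mem
    | add f g _ _ hf hg =>
      intro x hx
      rw [LinearMap.add_apply]
      exact W.add_mem (hf x hx) (hg x hx)
    | smul c f _ hf =>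
      intro x hx
      rw [LinearMap.smul_apply]
      exact W.smul_mem c (hf x hx)
  refine s59hgd_bot_or_top b W fun i₀ j x hx => hall _ ?_ x hx
  rw [hspan]
  exact Submodule.mem_top

/-- the span condition is invariant under isomorphism -/
theorem s59hgd_span_of_isEquiv {ρ₁ ρ₂ : ResidualGaloisRep k} (h : ρ₁.IsEquiv ρ₂)
    (hspan : Submodule.span k (Set.range ρ₂.ρ) = ⊤) :
    Submodule.span k (Set.range ρ₁.ρ) = ⊤ := by
  obtain ⟨e⟩ := h
  -- conjugation by `e`
  let c : Module.End k ρ₂.V →ₗ[k] Module.End k ρ₁.V :=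
    { toFun := fun g => e.toLinearEquiv.symm.toLinearMap ∘ₗ g ∘ₗ e.toLinearEquiv.toLinearMap
      map_add' := fun g g' => by
        rw [LinearMap.add_comp, LinearMap.comp_add]
      map_smul' := fun a g => by
        rw [LinearMap.smul_comp, LinearMap.comp_smul, RingHom.id_apply] }
  have hc : ∀ σ, c (ρ₂.ρ σ) = ρ₁.ρ σ := by
    intro σ
    refine LinearMap.ext fun x => ?_
    show e.toLinearEquiv.symm (ρ₂.ρ σ (e.toLinearEquiv x)) = ρ₁.ρ σ x
    rw [← e.map_apply, LinearEquiv.symm_apply_apply]
  have hsurj : Function.Surjective c := by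
    intro g
    refine ⟨e.toLinearEquiv.toLinearMap ∘ₗ g ∘ₗ e.toLinearEquiv.symm.toLinearMap, ?_⟩
    refine LinearMap.ext fun x => ?_
    show e.toLinearEquiv.symm (e.toLinearEquiv (g (e.toLinearEquiv.symm (e.toLinearEquiv x)))) = g x
    rw [LinearEquiv.symm_apply_apply, LinearEquiv.symm_apply_apply]
  rw [eq_top_iff]
  intro g _
  obtain ⟨g', rfl⟩ := hsurj g
  have hg' : g' ∈ Submodule.span k (Set.range ρ₂.ρ) := by rw [hspan]; exact Submodule.mem_top
  have := Submodule.apply_mem_span_image_of_mem_span c hg'
  refine Submodule.span_mono ?_ this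
  rintro _ ⟨_, ⟨σ, rfl⟩, rfl⟩
  exact ⟨σ, (hc σ).symm⟩

/-- absolute irreducibility is invariant under isomorphism -/
theorem s59hgd_absIrr_of_isEquiv {ρ₁ ρ₂ : ResidualGaloisRep k} (h : ρ₁.IsEquiv ρ₂)
    (habs : ρ₂.IsAbsolutelyIrreducible) : ρ₁.IsAbsolutelyIrreducible :=
  (s59hgd_absIrr_iff_span ρ₁).mpr
    (s59hgd_span_of_isEquiv h ((s59hgd_absIrr_iff_span ρ₂).mp habs))

end Rep

end Fermat.Agent.S59
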