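/-
S59 / HGD (helper20), part 2: the representation over a Hecke ring, GENERIC in `(T, π)`.

`T` a complete local ring with `p ∈ 𝔪_T` (`p` odd), `π : heckeAlgebra N 2 S →+* T` ANY ring
homomorphism (`S ∋ p` contains the primes dividing `N`), `ρbar` an irreducible residual
representation over the residue field of `T` with `det ρbar = χ_p mod p` and
`tr ρbar (Frob_ℓ) = π (T_ℓ) mod 𝔪_T` for `ℓ ∉ S`.  Then there is `ρ : GaloisRepAdic T` with

* `charpoly ρ(Frob_ℓ) = X² − π(T_ℓ) X + ℓ` for `ℓ ∉ S`,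
* `ρ.DetIsCyclotomic p`, `ρ.residual ≅ ρbar`, `ρ` unramified at every prime `q ∤ N p`.

Proof: the pseudo-character of `S30.exists_pseudoChar` (generic in the target ring) for
`χ := π`, then K7-GRA (`RT.stmtK7GRA`: Wiles' matrices over `T`); no flatness, no hypothesis
`p ∤ N`.
-/
import Fermat.Agent.S30.PseudoChar
import Fermat.Agent.RT.K7.Main
import Fermat.Agent.RT.K7.GRA

set_option autoImplicit false

namespace Fermat.Agent.S59

open IsLocalRing Polynomial Fermat.Agent.ES Fermat.Agent.S30 Fermat.Agent.S31 Fermat.Agent.RT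

/-- `2` is invertible in a local ring whose maximal ideal contains an odd prime. -/
theorem s59hgd_exists_half {T : Type*} [CommRing T] [IsLocalRing T] {p : ℕ} (hp : p.Prime)
    (hp2 : p ≠ 2) (hpT : (p : T) ∈ maximalIdeal T) : ∃ i2 : T, 2 * i2 = 1 := by
  have hodd : ¬ 2 ∣ p := fun h => hp2 ((Nat.prime_dvd_prime_iff_eq Nat.prime_two hp).mp h).symm
  have h2 : (2 : T) ∉ maximalIdeal T := by
    intro h
    obtain ⟨m, hm⟩ : ∃ m, p = 2 * m + 1 := ⟨p / 2, by omega⟩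
    have h1 : (1 : T) = (p : T) - 2 * (m : T) := by
      rw [hm]; push_cast; ring
    have : (1 : T) ∈ maximalIdeal T := by
      rw [h1]
      exact sub_mem hpT (Ideal.mul_mem_right _ _ h)
    exact (Ideal.ne_top_iff_one _).mp (maximalIdeal.isMaximal T).ne_top this
  have hu : IsUnit (2 : T) := IsLocalRing.notMem_maximalIdeal.mp h2
  obtain ⟨u, hu⟩ := hu
  exact ⟨((u⁻¹ : Tˣ) : T), by rw [← hu, Units.mul_inv]⟩

/-- **HGD, representation half** (generic in `(T, π)`). -/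
theorem s59hgd_rep (hcheb : Cheb.WeakChebotarev) (p : ℕ) [Fact p.Prime] (hp2 : p ≠ 2)
    (N : ℕ) [NeZero N] (hpkg : ESPkgFaith N p) (S : Finset ℕ) (hpS : p ∈ S)
    (hNS : ∀ q : ℕ, q.Prime → q ∣ N → q ∈ S)
    (T : Type) [CommRing T] [IsLocalRing T] [IsAdicComplete (maximalIdeal T) T]
    (hpT : (p : T) ∈ maximalIdeal T)
    (π : CuspForm.heckeAlgebra N 2 (↑S : Set ℕ) →+* T)
    (ρbar : ResidualGaloisRep (ResidueField T)) (hirr : ρbar.IsIrreducible)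
    (hdet : ∀ (σ : GQ) (a : ℕ), (∀ μ : AlgebraicClosure ℚ, μ ^ p = 1 → σ μ = μ ^ a) →
      LinearMap.det (ρbar.ρ σ) = (a : ResidueField T))
    (hfrob : ∀ (ℓ : ℕ) (hℓ : ℓ.Prime) (hℓN : ¬ ℓ ∣ N) (hℓS : ℓ ∉ (↑S : Set ℕ)),
      ∀ P : ValuationSubring (AlgebraicClosure ℚ), P.LiesOverPrime ℓ →
        ∀ τ : GQ, P.IsFrobeniusAt τ ℓ →
          residue T (π (CuspForm.heckeAlgebra.T hℓ hℓN hℓS))
            = LinearMap.trace (ResidueField T) ρbar.V (ρbar.ρ τ)) :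
    ∃ ρ : GaloisRepAdic T,
      (∀ (ℓ : ℕ) (hℓ : ℓ.Prime) (hℓN : ¬ ℓ ∣ N) (hℓS : ℓ ∉ (↑S : Set ℕ)),
        ∀ A : ValuationSubring (AlgebraicClosure ℚ), A.LiesOverPrime ℓ →
          ∀ σ : GQ, A.IsFrobeniusAt σ ℓ →
            LinearMap.charpoly (ρ.ρ σ)
              = X ^ 2 - C (π (CuspForm.heckeAlgebra.T hℓ hℓN hℓS)) * X + C ((ℓ : T))) ∧
      ρ.DetIsCyclotomic p ∧ ρ.residual.IsEquiv ρbar ∧
      (∀ q : ℕ, q.Prime → ¬ q ∣ N * p → ρ.IsUnramifiedAt q) := by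
  have hpp : p.Prime := Fact.out
  obtain ⟨i2, hi2⟩ := s59hgd_exists_half hpp hp2 hpT
  obtain ⟨t, ⟨h1, h2, h3⟩, htfrob, htin, htcont⟩ :=
    exists_pseudoChar (p := p) (N := N) (S := S) hcheb hpkg hpS hNS (maximalIdeal T) hpT π
  set ε : GQ →* T := (Units.coeHom T).comp (cycloCharO p (maximalIdeal T) hpT) with hε
  have hc : complexConjugation * complexConjugation = 1 := complexConjugation_mul_self
  have hεc : ε complexConjugation = -1 := cycloCharO_conj p (maximalIdeal T) hpT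
  have h3' : ∀ x y, t (x * y) + ε y * t (x * y⁻¹) = t x * t y := h3
  have hεdet : ∀ σ, residue T (ε σ) = LinearMap.det (ρbar.ρ σ) :=
    fun σ => rtk7m_residue_det hpT ρbar hdet σ
  have hgoodN : ∀ r : ℕ, r.Prime → r ∉ S → ¬ r ∣ N := fun r hr hrS h => hrS (hNS r hr h)
  have httr : ∀ σ, residue T (t σ) = LinearMap.trace (ResidueField T) ρbar.V (ρbar.ρ σ) := by
    obtain ⟨E, hEfin, hE⟩ := htcont 1
    refine rtk7m_residue_trace hcheb S ε t h1 h3' ⟨E, hEfin, fun σ hσ g => ?_⟩ ρbar hεdet ?_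
    · have := hE σ hσ g
      rwa [pow_one] at this
    · intro ℓ hℓ hℓS P hPℓ τ hτ
      have hℓS' : ℓ ∉ (↑S : Set ℕ) := fun h => hℓS (Finset.mem_coe.mp h)
      rw [htfrob ℓ hℓ (hgoodN ℓ hℓ hℓS) hℓS' P hPℓ τ hτ]
      exact hfrob ℓ hℓ (hgoodN ℓ hℓ hℓS) hℓS' P hPℓ τ hτ
  obtain ⟨σ₀, τ₀, u, hu, ρ, b, hmat, hdetcyc, hresid, htriv⟩ :=
    stmtK7GRA p hpp hp2 T hpT ρbar hirr t ε complexConjugation i2 h1 h2 h3' hc hεc hi2
      (fun n σ a h => rtk7m_cyc (maximalIdeal T) hpT n σ a h) httr hεdet htcont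
  refine ⟨ρ, ?_, hdetcyc, hresid, ?_⟩
  · intro ℓ hℓ hℓN hℓS A hA σ hσ
    have hℓp : ℓ ≠ p := by
      rintro rfl
      exact hℓS (Finset.mem_coe.mpr hpS)
    have htr : (rtk7Mat t complexConjugation i2 σ₀ τ₀ u σ).trace
        = π (CuspForm.heckeAlgebra.T hℓ hℓN hℓS) := by
      rw [rtk7m_trace_mat t complexConjugation i2 hi2 σ₀ τ₀ u σ]
      exact htfrob ℓ hℓ hℓN hℓS A hA σ hσ
    have hdt : (rtk7Mat t complexConjugation i2 σ₀ τ₀ u σ).det = (ℓ : T) := by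
      have := rtk7MatRep_det ε t complexConjugation h1 h2 h3' hc hεc i2 hi2 σ₀ τ₀ u hu σ
      have e : rtk7MatRep ε t complexConjugation h1 h2 h3' hc hεc i2 hi2 σ₀ τ₀ u hu σ
          = rtk7Mat t complexConjugation i2 σ₀ τ₀ u σ := rfl
      rw [e] at this
      rw [this]
      exact cycloCharO_frob p (maximalIdeal T) hpT ℓ hℓ hℓp A hA σ hσ
    rw [← LinearMap.charpoly_toMatrix (ρ.ρ σ) b, hmat σ, Matrix.charpoly_fin_two, htr, hdt]
  · intro q hq hqNp P hP σ hσ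
    exact htriv σ (fun g => htin q hq hqNp P hP σ hσ g)

end Fermat.Agent.S59
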