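/-
S59 / HGD (helper20 + helper36): INTERFACE between the RING half and the REPRESENTATION half.

* `S59HgdRing N S 𝒪 θ T π` : the ring half of a `CuspForm.HeckeGaloisRepDatum N S 𝒪 θ T`
  (its fields `residue_π`, `adjoin_range_π`, `exists_point`, `residue_surjective`) for a given
  `π : heckeAlgebra N 2 S →+* T`.
* `S59HgdRes p N S 𝒪 θ ρbar` : the hypotheses on the residual representation `ρbar` over the residue
  field of `𝒪`: absolutely irreducible, `det = χ_p mod p`, `tr ρbar (Frob_ℓ) = θ (T_ℓ)` for `ℓ ∉ S`.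

`S59/HGD/Datum.lean` : `s59hgd_datum : S59HgdRing … → S59HgdRes … → ∃ H : HeckeGaloisRepDatum …`.
-/
import Fermat.Prelude.Def_CuspForm_HeckeGaloisRepDatum

set_option autoImplicit false

namespace Fermat.Agent.S59

open IsLocalRing

/-- The ring half of a Hecke–Galois datum. -/
structure S59HgdRing (N : ℕ) [NeZero N] (S : Set ℕ) (𝒪 : Type) [CommRing 𝒪] [IsLocalRing 𝒪]
    (θ : CuspForm.heckeAlgebra N 2 S →+* ResidueField 𝒪)
    (T : Type) [CommRing T] [IsLocalRing T] [Algebra 𝒪 T] [IsLocalHom (algebraMap 𝒪 T)]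
    (π : CuspForm.heckeAlgebra N 2 S →+* T) : Prop where
  residue_π : ∀ t : CuspForm.heckeAlgebra N 2 S,
    residue T (π t) = ResidueField.map (algebraMap 𝒪 T) (θ t)
  adjoin_range_π : Algebra.adjoin 𝒪 (Set.range π) = ⊤
  exists_point : ∀ χ : CuspForm.heckeAlgebra N 2 S →+* 𝒪,
    (∀ t : CuspForm.heckeAlgebra N 2 S, residue 𝒪 (χ t) = θ t) →
      ∃ ψ : T →ₐ[𝒪] 𝒪, ∀ t : CuspForm.heckeAlgebra N 2 S, ψ (π t) = χ t
  residue_surjective : Function.Surjective (residue T ∘ algebraMap 𝒪 T)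

/-- The hypotheses on the residual representation. -/
structure S59HgdRes (p N : ℕ) [NeZero N] (S : Finset ℕ) (𝒪 : Type) [CommRing 𝒪] [IsLocalRing 𝒪]
    (θ : CuspForm.heckeAlgebra N 2 (↑S : Set ℕ) →+* ResidueField 𝒪)
    (ρbar : ResidualGaloisRep (ResidueField 𝒪)) : Prop where
  absIrr : ρbar.IsAbsolutelyIrreducible
  det : ∀ (σ : AlgebraicClosure ℚ ≃ₐ[ℚ] AlgebraicClosure ℚ) (a : ℕ),
    (∀ μ : AlgebraicClosure ℚ, μ ^ p = 1 → σ μ = μ ^ a) →
      LinearMap.det (ρbar.ρ σ) = (a : ResidueField 𝒪)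
  frob : ∀ (ℓ : ℕ) (hℓ : ℓ.Prime) (hℓN : ¬ ℓ ∣ N) (hℓS : ℓ ∉ (↑S : Set ℕ)),
    ∀ P : ValuationSubring (AlgebraicClosure ℚ), P.LiesOverPrime ℓ →
      ∀ τ : AlgebraicClosure ℚ ≃ₐ[ℚ] AlgebraicClosure ℚ, P.IsFrobeniusAt τ ℓ →
        θ (CuspForm.heckeAlgebra.T hℓ hℓN hℓS)
          = LinearMap.trace (ResidueField 𝒪) ρbar.V (ρbar.ρ τ)

end Fermat.Agent.S59
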