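/-
S59 / HGD (helper20), part 3: the Hecke–Galois datum from a ring package `(T, π)` and a residual
representation.

* `S59HgdRing N S 𝒪 θ T π` : the RING half of a `CuspForm.HeckeGaloisRepDatum` (fields `residue_π`,
  `adjoin_range_π`, `exists_point`, `residue_surjective`).
* `S59HgdRes p N S 𝒪 θ ρbar` : the hypotheses on the residual representation `ρbar` over the residue
  field of `𝒪` (absolutely irreducible, `det = χ_p mod p`, `tr ρbar (Frob_ℓ) = θ (T_ℓ)`, `ℓ ∉ S`).
* `s59hgd_datum` : ring package + residual hypotheses ⇒ a datum `H` with `H.π = π`,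
  `H.ρ.DetIsCyclotomic p`, `H.ρ.residual ≅ ρbar ⊗ k_T`, `H.ρ` unramified outside `N p`.
-/
import Fermat.Agent.S59.HGD.Abs
import Fermat.Agent.S59.HGD.Rep
import Fermat.Agent.S59.HGD.RingPlan

set_option autoImplicit false
set_option linter.style.haveILetI false

namespace Fermat.Agent.S59

open IsLocalRing Polynomial Fermat.Agent.ES Fermat.Agent.S31

section Transfer

variable {k K : Type} [Field k] [Field K] (ι : k →+* K) (ρ : ResidualGaloisRep k)

theorem s59hgd_det_baseChangeAlong (σ : GQ) :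
    LinearMap.det ((ρ.baseChangeAlong ι).ρ σ) = ι (LinearMap.det (ρ.ρ σ)) := by
  letI : Algebra k K := ι.toAlgebra
  exact LinearMap.det_baseChange (A := K) (ρ.ρ σ)

theorem s59hgd_trace_baseChangeAlong (σ : GQ) :
    LinearMap.trace K (ρ.baseChangeAlong ι).V ((ρ.baseChangeAlong ι).ρ σ)
      = ι (LinearMap.trace k ρ.V (ρ.ρ σ)) := by
  letI : Algebra k K := ι.toAlgebra
  exact LinearMap.trace_baseChange (ρ.ρ σ) K

end Transfer

/-- **HGD**: the Hecke–Galois datum of a ring package and a residual representation. -/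
theorem s59hgd_datum (hcheb : Cheb.WeakChebotarev) (p : ℕ) [Fact p.Prime] (hp2 : p ≠ 2)
    (N : ℕ) [NeZero N] (hpkg : ESPkgFaith N p) (S : Finset ℕ) (hpS : p ∈ S)
    (hNS : ∀ q : ℕ, q.Prime → q ∣ N → q ∈ S)
    (𝒪 : Type) [CommRing 𝒪] [IsDomain 𝒪] [IsDiscreteValuationRing 𝒪]
    [IsAdicComplete (maximalIdeal 𝒪) 𝒪] (hp𝒪 : (p : 𝒪) ∈ maximalIdeal 𝒪)
    (θ : CuspForm.heckeAlgebra N 2 (↑S : Set ℕ) →+* ResidueField 𝒪)
    (T : Type) [CommRing T] [IsLocalRing T] [IsNoetherianRing T]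
    [IsAdicComplete (maximalIdeal T) T] [Algebra 𝒪 T] [IsLocalHom (algebraMap 𝒪 T)]
    [Module.Finite 𝒪 T] [Module.Free 𝒪 T]
    (π : CuspForm.heckeAlgebra N 2 (↑S : Set ℕ) →+* T)
    (hR : S59HgdRing N (↑S : Set ℕ) 𝒪 θ T π)
    (ρbar : ResidualGaloisRep (ResidueField 𝒪)) (hρ : S59HgdRes p N S 𝒪 θ ρbar) :
    ∃ H : CuspForm.HeckeGaloisRepDatum N (↑S : Set ℕ) 𝒪 θ T,
      H.π = π ∧ H.ρ.DetIsCyclotomic p ∧
      H.ρ.residual.IsEquiv (ρbar.baseChangeAlong (ResidueField.map (algebraMap 𝒪 T))) ∧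
      (∀ q : ℕ, q.Prime → ¬ q ∣ N * p → H.ρ.IsUnramifiedAt q) := by
  set φ : ResidueField 𝒪 →+* ResidueField T := ResidueField.map (algebraMap 𝒪 T) with hφ
  have hpT : (p : T) ∈ maximalIdeal T := by
    have h1 : algebraMap 𝒪 T (p : 𝒪) ∈ maximalIdeal T := by
      rw [mem_maximalIdeal, mem_nonunits_iff]
      intro hu
      exact (mem_nonunits_iff.mp ((mem_maximalIdeal _).mp hp𝒪)) (isUnit_of_map_unit _ _ hu)
    rwa [map_natCast] at h1
  obtain ⟨ρ, hcp, hdetcyc, hresid, hunr⟩ :=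
    s59hgd_rep hcheb p hp2 N hpkg S hpS hNS T hpT π (ρbar.baseChangeAlong φ)
      (s59hgd_irr_baseChangeAlong ρbar hρ.absIrr φ)
      (fun σ a h => by
        rw [s59hgd_det_baseChangeAlong, hρ.det σ a h, map_natCast])
      (fun ℓ hℓ hℓN hℓS P hP τ hτ => by
        rw [s59hgd_trace_baseChangeAlong, ← hρ.frob ℓ hℓ hℓN hℓS P hP τ hτ]
        exact hR.residue_π _)
  refine ⟨{ π := π
            residue_π := hR.residue_π
            adjoin_range_π := hR.adjoin_range_π
            exists_point := hR.exists_point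
            residue_surjective := hR.residue_surjective
            ρ := ρ
            charpoly_frob := fun ℓ hℓ hℓN hℓS A hA σ hσ => hcp ℓ hℓ hℓN hℓS A hA σ hσ
            residual_absIrr := s59hgd_absIrr_of_isEquiv hresid
              (s59hgd_absIrr_baseChangeAlong ρbar hρ.absIrr φ) }, rfl, hdetcyc, hresid, hunr⟩

end Fermat.Agent.S59
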