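/-
S59-HGD, RING half (helper36; REP half = helper20, S59/HGD/Rep.lean; captain helper69).

The local Hecke ring of a residual eigensystem, WITHOUT Henselian theory.

`𝒪` a complete discrete valuation ring with residue field `k`, `𝕋` a commutative ring which is a finitely
generated `ℤ`-module (the Hecke algebra `CuspForm.heckeAlgebra N 2 S`, S22), `θ : 𝕋 →+* k`.

* `s59hgrX 𝒪 θ`   : the set of all lifts `χ : 𝕋 →+* 𝒪` of `θ` (FINITE: `s59hgr_finite_X`);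
* `s59hgrEv 𝒪 θ`  : `𝕋 →+* (X → 𝒪)`, `t ↦ (χ t)_χ`;
* `s59hgrSub 𝒪 θ` : the `𝒪`-subalgebra of `X → 𝒪` generated by the image of `𝕋`;
* `s59hgrT 𝒪 θ`   : the ring `T` (an `abbrev` for the coercion of `s59hgrSub`), `s59hgrPi : 𝕋 →+* T`.

If `X ≠ ∅` then `T` is a noetherian local ring, finite and free over `𝒪`, complete, with residue field `k`,
`𝒪 → T` is local, `T` is generated by the image of `𝕋`, every lift `χ` of `θ` is an `𝒪`-point of `T`, and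
the `𝒪`-points of `T` separate the elements of `T`.  (If `𝒪` contains the eigenvalues of all eigensystems
lifting `θ`, then `T` is the localisation of `𝕋 ⊗ 𝒪` at the maximal ideal of `θ`.)
-/
import Mathlib

set_option autoImplicit false

namespace Fermat.Agent.S59

open IsLocalRing Polynomial

section Defs

variable (𝒪 : Type) [CommRing 𝒪] [IsLocalRing 𝒪] {𝕋 : Type} [CommRing 𝕋]
  (θ : 𝕋 →+* ResidueField 𝒪)

/-- the lifts of `θ` to `𝒪` -/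
def s59hgrX : Type := {χ : 𝕋 →+* 𝒪 // ∀ t, residue 𝒪 (χ t) = θ t}

/-- `t ↦ (χ t)_χ` -/
def s59hgrEv : 𝕋 →+* (s59hgrX 𝒪 θ → 𝒪) := Pi.ringHom fun χ => χ.1

theorem s59hgrEv_apply (t : 𝕋) (χ : s59hgrX 𝒪 θ) : s59hgrEv 𝒪 θ t χ = χ.1 t := rfl

/-- the `𝒪`-subalgebra of `X → 𝒪` generated by the image of `𝕋` -/
def s59hgrSub : Subalgebra 𝒪 (s59hgrX 𝒪 θ → 𝒪) :=
  Algebra.adjoin 𝒪 (Set.range (s59hgrEv 𝒪 θ))

/-- **the local Hecke ring** of `θ` -/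
abbrev s59hgrT : Type := ↥(s59hgrSub 𝒪 θ)

theorem s59hgrEv_mem (t : 𝕋) : s59hgrEv 𝒪 θ t ∈ s59hgrSub 𝒪 θ :=
  Algebra.subset_adjoin ⟨t, rfl⟩

/-- the map `𝕋 → T` -/
def s59hgrPi : 𝕋 →+* s59hgrT 𝒪 θ :=
  (s59hgrEv 𝒪 θ).codRestrict (s59hgrSub 𝒪 θ) (s59hgrEv_mem 𝒪 θ)

theorem s59hgrPi_coe (t : 𝕋) : ((s59hgrPi 𝒪 θ t : s59hgrT 𝒪 θ) : s59hgrX 𝒪 θ → 𝒪) =
    s59hgrEv 𝒪 θ t := rfl

theorem s59hgrPi_apply (t : 𝕋) (χ : s59hgrX 𝒪 θ) :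
    ((s59hgrPi 𝒪 θ t : s59hgrT 𝒪 θ) : s59hgrX 𝒪 θ → 𝒪) χ = χ.1 t := rfl

/-- the `𝒪`-point of `T` attached to a lift of `θ` -/
def s59hgrPt (χ : s59hgrX 𝒪 θ) : s59hgrT 𝒪 θ →ₐ[𝒪] 𝒪 :=
  (Pi.evalAlgHom 𝒪 (fun _ : s59hgrX 𝒪 θ => 𝒪) χ).comp (s59hgrSub 𝒪 θ).val

theorem s59hgrPt_apply (χ : s59hgrX 𝒪 θ) (y : s59hgrT 𝒪 θ) :
    s59hgrPt 𝒪 θ χ y = (y : s59hgrX 𝒪 θ → 𝒪) χ := rfl

theorem s59hgrPt_pi (χ : s59hgrX 𝒪 θ) (t : 𝕋) : s59hgrPt 𝒪 θ χ (s59hgrPi 𝒪 θ t) = χ.1 t := rfl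

/-- the points separate -/
theorem s59hgr_sep (y : s59hgrT 𝒪 θ) (h : ∀ ψ : s59hgrT 𝒪 θ →ₐ[𝒪] 𝒪, ψ y = 0) : y = 0 := by
  apply Subtype.ext
  funext χ
  exact h (s59hgrPt 𝒪 θ χ)

/-- `exists_point` -/
theorem s59hgr_exists_point (χ : 𝕋 →+* 𝒪) (hχ : ∀ t, residue 𝒪 (χ t) = θ t) :
    ∃ ψ : s59hgrT 𝒪 θ →ₐ[𝒪] 𝒪, ∀ t, ψ (s59hgrPi 𝒪 θ t) = χ t :=
  ⟨s59hgrPt 𝒪 θ ⟨χ, hχ⟩, fun _ => rfl⟩

/-- `adjoin_range_π` -/
theorem s59hgr_adjoin : Algebra.adjoin 𝒪 (Set.range (s59hgrPi 𝒪 θ)) = ⊤ := by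
  apply Subalgebra.map_injective (f := (s59hgrSub 𝒪 θ).val) Subtype.val_injective
  rw [Algebra.map_top, Subalgebra.range_val, AlgHom.map_adjoin]
  have : (s59hgrSub 𝒪 θ).val '' Set.range (s59hgrPi 𝒪 θ) = Set.range (s59hgrEv 𝒪 θ) := by
    ext y
    constructor
    · rintro ⟨_, ⟨t, rfl⟩, rfl⟩
      exact ⟨t, rfl⟩
    · rintro ⟨t, rfl⟩
      exact ⟨s59hgrPi 𝒪 θ t, ⟨t, rfl⟩, rfl⟩
  rw [this]
  rfl

/-- the subalgebra of the functions with constant residue -/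
def s59hgrConst : Subalgebra 𝒪 (s59hgrX 𝒪 θ → 𝒪) where
  carrier := {y | ∀ χ χ', residue 𝒪 (y χ) = residue 𝒪 (y χ')}
  mul_mem' := by
    intro a b ha hb χ χ'
    simp only [Pi.mul_apply, map_mul]
    rw [ha χ χ', hb χ χ']
  add_mem' := by
    intro a b ha hb χ χ'
    simp only [Pi.add_apply, map_add]
    rw [ha χ χ', hb χ χ']
  algebraMap_mem' := by
    intro r χ χ'
    rfl

theorem s59hgrSub_le_const : s59hgrSub 𝒪 θ ≤ s59hgrConst 𝒪 θ := by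
  apply Algebra.adjoin_le
  rintro _ ⟨t, rfl⟩ χ χ'
  rw [s59hgrEv_apply, s59hgrEv_apply, χ.2 t, χ'.2 t]

theorem s59hgr_residue_const (y : s59hgrT 𝒪 θ) (χ χ' : s59hgrX 𝒪 θ) :
    residue 𝒪 ((y : s59hgrX 𝒪 θ → 𝒪) χ) = residue 𝒪 ((y : s59hgrX 𝒪 θ → 𝒪) χ') :=
  s59hgrSub_le_const 𝒪 θ y.2 χ χ'

end Defs


section Finite

/-- a commutative ring which is a finitely generated `ℤ`-module has only finitely many ring
homomorphisms to a domain -/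
theorem s59hgr_finite_ringHom (𝕋 : Type) [CommRing 𝕋] [Module.Finite ℤ 𝕋] (R : Type) [CommRing R]
    [IsDomain R] : Finite (𝕋 →+* R) := by
  classical
  obtain ⟨G, hG⟩ := (Module.Finite.fg_top : (⊤ : Submodule ℤ 𝕋).FG)
  haveI : Algebra.IsIntegral ℤ 𝕋 := Algebra.IsIntegral.of_finite ℤ 𝕋
  have hint : ∀ g : 𝕋, ∃ P : ℤ[X], P.Monic ∧ Polynomial.eval₂ (algebraMap ℤ 𝕋) g P = 0 :=
    fun g => Algebra.IsIntegral.isIntegral (R := ℤ) g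
  choose P hPm hP0 using hint
  let t : (↥G) → Set R := fun g => {a : R | ((P g.1).map (Int.castRingHom R)).IsRoot a}
  have htfin : ∀ g, (t g).Finite := fun g =>
    Polynomial.finite_setOf_isRoot ((hPm g.1).map (Int.castRingHom R)).ne_zero
  have hfin : (Set.pi Set.univ t).Finite := Set.Finite.pi htfin
  haveI : Finite ↥(Set.pi Set.univ t) := hfin.to_subtype
  have hroot : ∀ (χ : 𝕋 →+* R) (g : 𝕋), ((P g).map (Int.castRingHom R)).IsRoot (χ g) := by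
    intro χ g
    rw [Polynomial.IsRoot.def, Polynomial.eval_map]
    have h1 := Polynomial.hom_eval₂ (P g) (algebraMap ℤ 𝕋) χ g
    rw [hP0 g, map_zero] at h1
    have h2 : χ.comp (algebraMap ℤ 𝕋) = Int.castRingHom R := RingHom.ext_int _ _
    rw [h2] at h1
    exact h1.symm
  let F : (𝕋 →+* R) → ↥(Set.pi Set.univ t) := fun χ =>
    ⟨fun g => χ g.1, fun g _ => hroot χ g.1⟩
  apply Finite.of_injective F
  intro χ χ' h
  have h1 : ∀ g ∈ G, χ g = χ' g := by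
    intro g hg
    have := congrArg (fun f : ↥(Set.pi Set.univ t) => f.1 ⟨g, hg⟩) h
    exact this
  have h2 : χ.toAddMonoidHom.toIntLinearMap = χ'.toAddMonoidHom.toIntLinearMap := by
    apply LinearMap.ext_on hG
    intro g hg
    exact h1 g hg
  ext x
  exact LinearMap.congr_fun h2 x

variable (𝒪 : Type) [CommRing 𝒪] [IsLocalRing 𝒪] {𝕋 : Type} [CommRing 𝕋]
  (θ : 𝕋 →+* ResidueField 𝒪)

theorem s59hgr_finite_X [IsDomain 𝒪] [Module.Finite ℤ 𝕋] : Finite (s59hgrX 𝒪 θ) := by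
  haveI := s59hgr_finite_ringHom 𝕋 𝒪
  exact Subtype.finite

end Finite


section Local

/-- an element killed by a polynomial with invertible constant term is a unit -/
theorem s59hgr_isUnit_of_aeval {R A : Type*} [CommRing R] [CommRing A] [Algebra R A] (y : A)
    (P : R[X]) (h0 : Polynomial.aeval y P = 0) (hu : IsUnit (P.coeff 0)) : IsUnit y := by
  obtain ⟨u, hu⟩ := hu
  have h1 : Polynomial.aeval y (P.divX * Polynomial.X + Polynomial.C (P.coeff 0)) = 0 := by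
    rw [Polynomial.divX_mul_X_add]
    exact h0
  rw [map_add, map_mul, Polynomial.aeval_X, Polynomial.aeval_C] at h1
  have h2 : y * (-(algebraMap R A (↑u⁻¹ : R)) * Polynomial.aeval y P.divX) = 1 := by
    have h3 : Polynomial.aeval y P.divX * y = -algebraMap R A (P.coeff 0) :=
      eq_neg_of_add_eq_zero_left h1
    calc y * (-(algebraMap R A (↑u⁻¹ : R)) * Polynomial.aeval y P.divX)
        = -(algebraMap R A (↑u⁻¹ : R)) * (Polynomial.aeval y P.divX * y) := by ring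
      _ = algebraMap R A ((↑u⁻¹ : R) * P.coeff 0) := by
          rw [h3, map_mul]
          ring
      _ = 1 := by rw [← hu, Units.inv_mul, map_one]
  exact IsUnit.of_mul_eq_one _ h2

variable (𝒪 : Type) [CommRing 𝒪] [IsLocalRing 𝒪] {𝕋 : Type} [CommRing 𝕋]
  (θ : 𝕋 →+* ResidueField 𝒪)

/-- the characteristic polynomial `∏_χ (Z − y_χ)` of `y` -/
noncomputable def s59hgrPoly [Fintype (s59hgrX 𝒪 θ)] (y : s59hgrX 𝒪 θ → 𝒪) : 𝒪[X] :=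
  ∏ χ : s59hgrX 𝒪 θ, (Polynomial.X - Polynomial.C (y χ))

theorem s59hgrPoly_aeval [Fintype (s59hgrX 𝒪 θ)] (y : s59hgrX 𝒪 θ → 𝒪) :
    Polynomial.aeval y (s59hgrPoly 𝒪 θ y) = 0 := by
  funext χ
  have h1 := Polynomial.aeval_algHom_apply
    (Pi.evalAlgHom 𝒪 (fun _ : s59hgrX 𝒪 θ => 𝒪) χ) y (s59hgrPoly 𝒪 θ y)
  rw [Pi.evalAlgHom_apply, Pi.evalAlgHom_apply] at h1
  rw [← h1, Pi.zero_apply, Polynomial.coe_aeval_eq_eval, s59hgrPoly, Polynomial.eval_prod]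
  apply Finset.prod_eq_zero (Finset.mem_univ χ)
  simp

theorem s59hgrPoly_aeval_T [Fintype (s59hgrX 𝒪 θ)] (y : s59hgrT 𝒪 θ) :
    Polynomial.aeval y (s59hgrPoly 𝒪 θ (y : s59hgrX 𝒪 θ → 𝒪)) = 0 := by
  apply Subtype.ext
  rw [← Subalgebra.aeval_coe, s59hgrPoly_aeval]
  rfl

theorem s59hgrPoly_coeff_zero [Fintype (s59hgrX 𝒪 θ)] (y : s59hgrX 𝒪 θ → 𝒪) :
    (s59hgrPoly 𝒪 θ y).coeff 0 = ∏ χ : s59hgrX 𝒪 θ, (-(y χ)) := by
  rw [Polynomial.coeff_zero_eq_eval_zero, s59hgrPoly, Polynomial.eval_prod]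
  apply Finset.prod_congr rfl
  intro χ _
  simp

theorem s59hgr_isUnit_iff [Finite (s59hgrX 𝒪 θ)] (y : s59hgrT 𝒪 θ) :
    IsUnit y ↔ ∀ χ, IsUnit ((y : s59hgrX 𝒪 θ → 𝒪) χ) := by
  constructor
  · intro h χ
    exact h.map (s59hgrPt 𝒪 θ χ)
  · intro h
    haveI : Fintype (s59hgrX 𝒪 θ) := Fintype.ofFinite _
    apply s59hgr_isUnit_of_aeval y _ (s59hgrPoly_aeval_T 𝒪 θ y)
    rw [s59hgrPoly_coeff_zero]
    rw [IsUnit.prod_univ_iff]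
    intro χ
    exact (h χ).neg

theorem s59hgr_isUnit_iff_of [Finite (s59hgrX 𝒪 θ)] (χ₀ : s59hgrX 𝒪 θ) (y : s59hgrT 𝒪 θ) :
    IsUnit y ↔ IsUnit ((y : s59hgrX 𝒪 θ → 𝒪) χ₀) := by
  rw [s59hgr_isUnit_iff]
  constructor
  · intro h
    exact h χ₀
  · intro h χ
    have h1 := s59hgr_residue_const 𝒪 θ y χ χ₀
    rw [← IsLocalRing.notMem_maximalIdeal] at h ⊢
    intro h2
    apply h
    rw [← IsLocalRing.residue_eq_zero_iff] at h2 ⊢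
    rw [← h1, h2]

theorem s59hgr_nontrivial [Nonempty (s59hgrX 𝒪 θ)] : Nontrivial (s59hgrT 𝒪 θ) := by
  obtain ⟨χ₀⟩ := (inferInstance : Nonempty (s59hgrX 𝒪 θ))
  refine ⟨⟨0, 1, fun h => ?_⟩⟩
  have h1 := congrArg (s59hgrPt 𝒪 θ χ₀) h
  rw [map_zero, map_one] at h1
  exact zero_ne_one h1

theorem s59hgr_isLocalRing [Finite (s59hgrX 𝒪 θ)] [Nonempty (s59hgrX 𝒪 θ)] :
    IsLocalRing (s59hgrT 𝒪 θ) := by
  haveI := s59hgr_nontrivial 𝒪 θ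
  obtain ⟨χ₀⟩ := (inferInstance : Nonempty (s59hgrX 𝒪 θ))
  apply IsLocalRing.of_isUnit_or_isUnit_one_sub_self
  intro a
  have h1 : s59hgrPt 𝒪 θ χ₀ a + s59hgrPt 𝒪 θ χ₀ (1 - a) = 1 := by
    rw [← map_add, add_sub_cancel, map_one]
  rcases IsLocalRing.isUnit_or_isUnit_of_add_one h1 with h | h
  · left
    exact (s59hgr_isUnit_iff_of 𝒪 θ χ₀ a).2 h
  · right
    exact (s59hgr_isUnit_iff_of 𝒪 θ χ₀ (1 - a)).2 h

theorem s59hgr_mem_maximalIdeal_iff [Finite (s59hgrX 𝒪 θ)] [IsLocalRing (s59hgrT 𝒪 θ)]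
    (χ₀ : s59hgrX 𝒪 θ) (y : s59hgrT 𝒪 θ) :
    y ∈ maximalIdeal (s59hgrT 𝒪 θ) ↔ (y : s59hgrX 𝒪 θ → 𝒪) χ₀ ∈ maximalIdeal 𝒪 := by
  rw [IsLocalRing.mem_maximalIdeal, IsLocalRing.mem_maximalIdeal, mem_nonunits_iff,
    mem_nonunits_iff, s59hgr_isUnit_iff_of 𝒪 θ χ₀]

theorem s59hgr_isLocalHom [Finite (s59hgrX 𝒪 θ)] [Nonempty (s59hgrX 𝒪 θ)] :
    IsLocalHom (algebraMap 𝒪 (s59hgrT 𝒪 θ)) := by
  obtain ⟨χ₀⟩ := (inferInstance : Nonempty (s59hgrX 𝒪 θ))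
  refine ⟨fun a ha => ?_⟩
  have := ha.map (s59hgrPt 𝒪 θ χ₀)
  rwa [AlgHom.commutes, Algebra.algebraMap_self_apply] at this

/-- `residue_surjective` -/
theorem s59hgr_residue_surjective [Finite (s59hgrX 𝒪 θ)] [Nonempty (s59hgrX 𝒪 θ)]
    [IsLocalRing (s59hgrT 𝒪 θ)] :
    Function.Surjective (residue (s59hgrT 𝒪 θ) ∘ algebraMap 𝒪 (s59hgrT 𝒪 θ)) := by
  obtain ⟨χ₀⟩ := (inferInstance : Nonempty (s59hgrX 𝒪 θ))
  intro z
  obtain ⟨y, rfl⟩ := IsLocalRing.residue_surjective z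
  refine ⟨(y : s59hgrX 𝒪 θ → 𝒪) χ₀, ?_⟩
  rw [Function.comp_apply, ← sub_eq_zero, ← map_sub, IsLocalRing.residue_eq_zero_iff,
    s59hgr_mem_maximalIdeal_iff 𝒪 θ χ₀]
  have : ((algebraMap 𝒪 (s59hgrT 𝒪 θ) ((y : s59hgrX 𝒪 θ → 𝒪) χ₀) - y : s59hgrT 𝒪 θ) :
      s59hgrX 𝒪 θ → 𝒪) χ₀ = 0 := by
    show (y : s59hgrX 𝒪 θ → 𝒪) χ₀ - (y : s59hgrX 𝒪 θ → 𝒪) χ₀ = 0
    exact sub_self _
  rw [this]
  exact Ideal.zero_mem _

/-- `residue_π` -/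
theorem s59hgr_residue_pi [Finite (s59hgrX 𝒪 θ)] [Nonempty (s59hgrX 𝒪 θ)]
    [IsLocalRing (s59hgrT 𝒪 θ)] [IsLocalHom (algebraMap 𝒪 (s59hgrT 𝒪 θ))] (t : 𝕋) :
    residue (s59hgrT 𝒪 θ) (s59hgrPi 𝒪 θ t) =
      ResidueField.map (algebraMap 𝒪 (s59hgrT 𝒪 θ)) (θ t) := by
  obtain ⟨χ₀⟩ := (inferInstance : Nonempty (s59hgrX 𝒪 θ))
  rw [← χ₀.2 t, ResidueField.map_residue, ← sub_eq_zero, ← map_sub,
    IsLocalRing.residue_eq_zero_iff, s59hgr_mem_maximalIdeal_iff 𝒪 θ χ₀]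
  have : ((s59hgrPi 𝒪 θ t - algebraMap 𝒪 (s59hgrT 𝒪 θ) (χ₀.1 t) : s59hgrT 𝒪 θ) :
      s59hgrX 𝒪 θ → 𝒪) χ₀ = 0 := by
    show χ₀.1 t - χ₀.1 t = 0
    exact sub_self _
  rw [this]
  exact Ideal.zero_mem _

end Local


section Complete

variable {R M ι : Type*} [CommRing R] [AddCommGroup M] [Module R M]

theorem s59hgr_repr_mem (b : Module.Basis ι R M) (J : Ideal R) {x : M}
    (hx : x ∈ (J • ⊤ : Submodule R M)) (i : ι) : b.repr x i ∈ J := by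
  refine Submodule.smul_induction_on hx ?_ ?_
  · intro r hr m _
    rw [map_smul, Finsupp.smul_apply, smul_eq_mul]
    exact J.mul_mem_right _ hr
  · intro x y hx hy
    rw [map_add, Finsupp.add_apply]
    exact J.add_mem hx hy

theorem s59hgr_mem_smul_top_of_repr [Fintype ι] (b : Module.Basis ι R M) (J : Ideal R) {x : M}
    (hx : ∀ i, b.repr x i ∈ J) : x ∈ (J • ⊤ : Submodule R M) := by
  rw [← b.sum_repr x]
  exact Submodule.sum_mem _ fun i _ => Submodule.smul_mem_smul (hx i) Submodule.mem_top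

/-- a module with a finite basis over a precomplete ring is precomplete -/
theorem s59hgr_isPrecomplete_of_basis [Fintype ι] (I : Ideal R) [IsPrecomplete I R]
    (b : Module.Basis ι R M) : IsPrecomplete I M := by
  refine ⟨fun f hf => ?_⟩
  have hc : ∀ i, ∃ L : R, ∀ n, b.repr (f n) i ≡ L [SMOD (I ^ n • ⊤ : Submodule R R)] := by
    intro i
    apply IsPrecomplete.prec' (I := I)
    intro m n hmn
    rw [SModEq.sub_mem]
    have h1 := hf hmn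
    rw [SModEq.sub_mem] at h1
    have h2 := s59hgr_repr_mem b (I ^ m) h1 i
    rw [map_sub, Finsupp.sub_apply] at h2
    rw [smul_eq_mul, Ideal.mul_top]
    exact h2
  choose L hL using hc
  refine ⟨∑ i, L i • b i, fun n => ?_⟩
  rw [SModEq.sub_mem]
  apply s59hgr_mem_smul_top_of_repr b
  intro i
  have h3 := hL i n
  rw [SModEq.sub_mem, smul_eq_mul, Ideal.mul_top] at h3
  rw [map_sub, Finsupp.sub_apply, b.repr_sum_self]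
  exact h3

/-- precompleteness passes to an ideal with the same topology -/
theorem s59hgr_isPrecomplete_of_pow_le {A : Type*} [CommRing A] (I J : Ideal A)
    [IsPrecomplete J A] (c : ℕ) (hc : I ^ c ≤ J) (hJI : J ≤ I) : IsPrecomplete I A := by
  refine ⟨fun f hf => ?_⟩
  have hc1 : I ^ (c + 1) ≤ J := (Ideal.pow_le_pow_right (Nat.le_succ c)).trans hc
  have hg : ∀ {m n : ℕ}, m ≤ n →
      f ((c + 1) * m) ≡ f ((c + 1) * n) [SMOD (J ^ m • ⊤ : Submodule A A)] := by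
    intro m n hmn
    have h1 := hf (Nat.mul_le_mul_left (c + 1) hmn)
    rw [SModEq.sub_mem, smul_eq_mul, Ideal.mul_top] at h1 ⊢
    have h2 : I ^ ((c + 1) * m) ≤ J ^ m := by
      rw [pow_mul]
      exact Ideal.pow_right_mono hc1 m
    exact h2 h1
  obtain ⟨L, hL⟩ := IsPrecomplete.prec' (I := J) (fun n => f ((c + 1) * n)) hg
  refine ⟨L, fun n => ?_⟩
  have h1 := hL n
  have h2 := hf (show n ≤ (c + 1) * n by nlinarith)
  rw [SModEq.sub_mem, smul_eq_mul, Ideal.mul_top] at h1 h2 ⊢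
  have h3 : f ((c + 1) * n) - L ∈ I ^ n := Ideal.pow_right_mono hJI n h1
  have h4 : f n - L = (f n - f ((c + 1) * n)) + (f ((c + 1) * n) - L) := by ring
  rw [h4]
  exact Ideal.add_mem _ h2 h3

end Complete


section Structure

variable (𝒪 : Type) [CommRing 𝒪] [IsLocalRing 𝒪] {𝕋 : Type} [CommRing 𝕋]
  (θ : 𝕋 →+* ResidueField 𝒪)

theorem s59hgr_module_finite [IsNoetherianRing 𝒪] [Finite (s59hgrX 𝒪 θ)] :
    Module.Finite 𝒪 (s59hgrT 𝒪 θ) := by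
  haveI : IsNoetherian 𝒪 (s59hgrX 𝒪 θ → 𝒪) := isNoetherian_pi
  exact Module.Finite.of_injective (s59hgrSub 𝒪 θ).val.toLinearMap Subtype.val_injective

theorem s59hgr_isNoetherianRing [IsNoetherianRing 𝒪] [Finite (s59hgrX 𝒪 θ)] :
    IsNoetherianRing (s59hgrT 𝒪 θ) := by
  haveI := s59hgr_module_finite 𝒪 θ
  exact Algebra.FiniteType.isNoetherianRing 𝒪 (s59hgrT 𝒪 θ)

theorem s59hgr_module_free [IsDomain 𝒪] [IsPrincipalIdealRing 𝒪] [Finite (s59hgrX 𝒪 θ)] :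
    Module.Free 𝒪 (s59hgrT 𝒪 θ) := by
  haveI := s59hgr_module_finite 𝒪 θ
  infer_instance

/-- the lower coefficients of the characteristic polynomial of `y ∈ 𝔪_T` are in `𝔪_𝒪` -/
theorem s59hgrPoly_map [Fintype (s59hgrX 𝒪 θ)] (y : s59hgrX 𝒪 θ → 𝒪)
    (hy : ∀ χ, y χ ∈ maximalIdeal 𝒪) :
    (s59hgrPoly 𝒪 θ y).map (residue 𝒪) = Polynomial.X ^ Fintype.card (s59hgrX 𝒪 θ) := by
  rw [s59hgrPoly, Polynomial.map_prod]
  have : ∀ χ ∈ (Finset.univ : Finset (s59hgrX 𝒪 θ)),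
      (Polynomial.X - Polynomial.C (y χ)).map (residue 𝒪) = Polynomial.X := by
    intro χ _
    rw [Polynomial.map_sub, Polynomial.map_X, Polynomial.map_C,
      (IsLocalRing.residue_eq_zero_iff _).2 (hy χ), map_zero, sub_zero]
  rw [Finset.prod_congr rfl this, Finset.prod_const, Finset.card_univ]

theorem s59hgrPoly_monic [Fintype (s59hgrX 𝒪 θ)] (y : s59hgrX 𝒪 θ → 𝒪) :
    (s59hgrPoly 𝒪 θ y).Monic :=
  Polynomial.monic_prod_of_monic _ _ fun χ _ => Polynomial.monic_X_sub_C (y χ)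

theorem s59hgr_pow_mem [Finite (s59hgrX 𝒪 θ)] [IsLocalRing (s59hgrT 𝒪 θ)]
    (y : s59hgrT 𝒪 θ) (hy : y ∈ maximalIdeal (s59hgrT 𝒪 θ)) :
    ∃ d : ℕ, y ^ d ∈ (maximalIdeal 𝒪).map (algebraMap 𝒪 (s59hgrT 𝒪 θ)) := by
  haveI : Fintype (s59hgrX 𝒪 θ) := Fintype.ofFinite _
  have hyχ : ∀ χ, (y : s59hgrX 𝒪 θ → 𝒪) χ ∈ maximalIdeal 𝒪 :=
    fun χ => (s59hgr_mem_maximalIdeal_iff 𝒪 θ χ y).1 hy
  set P := s59hgrPoly 𝒪 θ (y : s59hgrX 𝒪 θ → 𝒪) with hP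
  set d := Fintype.card (s59hgrX 𝒪 θ) with hd
  have hmap := s59hgrPoly_map 𝒪 θ _ hyχ
  have hmon : P.Monic := s59hgrPoly_monic 𝒪 θ _
  have hdeg : P.natDegree = d := by
    rw [← hmon.natDegree_map (residue 𝒪), hmap, Polynomial.natDegree_X_pow]
  have hcoeff : ∀ i, i < d → P.coeff i ∈ maximalIdeal 𝒪 := by
    intro i hi
    rw [← IsLocalRing.residue_eq_zero_iff, ← Polynomial.coeff_map, hmap, Polynomial.coeff_X_pow,
      if_neg (Nat.ne_of_lt hi)]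
  have h0 := s59hgrPoly_aeval_T 𝒪 θ y
  rw [Polynomial.aeval_eq_sum_range, hdeg, Finset.sum_range_succ] at h0
  have h1 : P.coeff d = 1 := by
    rw [← hdeg]
    exact hmon.coeff_natDegree
  rw [h1, one_smul] at h0
  refine ⟨d, ?_⟩
  have h2 : y ^ d = -∑ i ∈ Finset.range d, P.coeff i • y ^ i := eq_neg_of_add_eq_zero_right h0
  rw [h2]
  rw [neg_mem_iff]
  apply Ideal.sum_mem
  intro i hi
  rw [Algebra.smul_def]
  exact Ideal.mul_mem_right _ _ (Ideal.mem_map_of_mem _ (hcoeff i (Finset.mem_range.1 hi)))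

theorem s59hgr_map_le [Finite (s59hgrX 𝒪 θ)] [Nonempty (s59hgrX 𝒪 θ)]
    [IsLocalRing (s59hgrT 𝒪 θ)] :
    (maximalIdeal 𝒪).map (algebraMap 𝒪 (s59hgrT 𝒪 θ)) ≤ maximalIdeal (s59hgrT 𝒪 θ) := by
  haveI := s59hgr_isLocalHom 𝒪 θ
  rw [Ideal.map_le_iff_le_comap]
  intro a ha
  rw [Ideal.mem_comap]
  rw [IsLocalRing.mem_maximalIdeal, mem_nonunits_iff] at ha ⊢
  intro h
  exact ha (isUnit_of_map_unit (algebraMap 𝒪 (s59hgrT 𝒪 θ)) a h)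

theorem s59hgr_exists_pow_le [IsNoetherianRing 𝒪] [Finite (s59hgrX 𝒪 θ)]
    [IsLocalRing (s59hgrT 𝒪 θ)] :
    ∃ c : ℕ, maximalIdeal (s59hgrT 𝒪 θ) ^ c ≤
      (maximalIdeal 𝒪).map (algebraMap 𝒪 (s59hgrT 𝒪 θ)) := by
  haveI := s59hgr_isNoetherianRing 𝒪 θ
  apply Ideal.exists_pow_le_of_le_radical_of_fg
  · intro y hy
    exact s59hgr_pow_mem 𝒪 θ y hy
  · exact IsNoetherian.noetherian _

theorem s59hgr_isAdicComplete [IsDomain 𝒪] [IsPrincipalIdealRing 𝒪]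
    [IsAdicComplete (maximalIdeal 𝒪) 𝒪] [Finite (s59hgrX 𝒪 θ)] [Nonempty (s59hgrX 𝒪 θ)]
    [IsLocalRing (s59hgrT 𝒪 θ)] :
    IsAdicComplete (maximalIdeal (s59hgrT 𝒪 θ)) (s59hgrT 𝒪 θ) := by
  haveI := s59hgr_module_finite 𝒪 θ
  haveI := s59hgr_isNoetherianRing 𝒪 θ
  haveI := s59hgr_module_free 𝒪 θ
  have b := Module.Free.chooseBasis 𝒪 (s59hgrT 𝒪 θ)
  haveI : Fintype (Module.Free.ChooseBasisIndex 𝒪 (s59hgrT 𝒪 θ)) := inferInstance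
  haveI h1 : IsPrecomplete (maximalIdeal 𝒪) (s59hgrT 𝒪 θ) :=
    s59hgr_isPrecomplete_of_basis (maximalIdeal 𝒪) b
  haveI h2 : IsPrecomplete ((maximalIdeal 𝒪).map (algebraMap 𝒪 (s59hgrT 𝒪 θ)))
      (s59hgrT 𝒪 θ) := (IsPrecomplete.map_algebraMap_iff).2 h1
  obtain ⟨c, hc⟩ := s59hgr_exists_pow_le 𝒪 θ
  haveI h3 : IsPrecomplete (maximalIdeal (s59hgrT 𝒪 θ)) (s59hgrT 𝒪 θ) :=
    s59hgr_isPrecomplete_of_pow_le _ _ c hc (s59hgr_map_le 𝒪 θ)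
  exact { toIsHausdorff := inferInstance, toIsPrecomplete := h3 }

end Structure


section Generic

/-- the residue field of a local `𝒪`-algebra with `residue_surjective` is finite if that of `𝒪` is -/
theorem s59hgr_finite_residueField (𝒪 : Type*) [CommRing 𝒪] [IsLocalRing 𝒪]
    [Finite (ResidueField 𝒪)] (T : Type*) [CommRing T] [IsLocalRing T] [Algebra 𝒪 T]
    [IsLocalHom (algebraMap 𝒪 T)]
    (h : Function.Surjective (residue T ∘ algebraMap 𝒪 T)) : Finite (ResidueField T) := by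
  apply Finite.of_surjective (ResidueField.map (algebraMap 𝒪 T))
  intro z
  obtain ⟨a, rfl⟩ := h z
  exact ⟨residue 𝒪 a, ResidueField.map_residue _ a⟩

/-- `p ∈ 𝔪_T` if `p ∈ 𝔪_𝒪` -/
theorem s59hgr_natCast_mem (𝒪 : Type*) [CommRing 𝒪] [IsLocalRing 𝒪] (T : Type*) [CommRing T]
    [IsLocalRing T] [Algebra 𝒪 T] [IsLocalHom (algebraMap 𝒪 T)] (p : ℕ)
    (hp : (p : 𝒪) ∈ maximalIdeal 𝒪) : (p : T) ∈ maximalIdeal T := by
  rw [IsLocalRing.mem_maximalIdeal, mem_nonunits_iff] at hp ⊢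
  intro h
  apply hp
  apply isUnit_of_map_unit (algebraMap 𝒪 T)
  rwa [map_natCast]

end Generic

section Main

variable (𝒪 : Type) [CommRing 𝒪] [IsDomain 𝒪] [IsDiscreteValuationRing 𝒪]
  [IsAdicComplete (maximalIdeal 𝒪) 𝒪] {𝕋 : Type} [CommRing 𝕋] [Module.Finite ℤ 𝕋]
  (θ : 𝕋 →+* ResidueField 𝒪)

/-- **S59-HGD, the ring half** (abstract `𝕋`): if `θ` has a lift to `𝒪`, the ring `T = s59hgrT 𝒪 θ`
has all the instances and properties asked by `CuspForm.HeckeGaloisRepDatum` (except `ρ`), and its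
`𝒪`-points separate. -/
theorem s59hgr_main_abs (hX : ∃ χ : 𝕋 →+* 𝒪, ∀ t, residue 𝒪 (χ t) = θ t) :
    ∃ (_ : IsLocalRing (s59hgrT 𝒪 θ)) (_ : IsNoetherianRing (s59hgrT 𝒪 θ))
      (_ : IsAdicComplete (maximalIdeal (s59hgrT 𝒪 θ)) (s59hgrT 𝒪 θ))
      (_ : IsLocalHom (algebraMap 𝒪 (s59hgrT 𝒪 θ)))
      (_ : Module.Finite 𝒪 (s59hgrT 𝒪 θ)) (_ : Module.Free 𝒪 (s59hgrT 𝒪 θ)),
      (∀ t, residue (s59hgrT 𝒪 θ) (s59hgrPi 𝒪 θ t) =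
        ResidueField.map (algebraMap 𝒪 (s59hgrT 𝒪 θ)) (θ t)) ∧
      Algebra.adjoin 𝒪 (Set.range (s59hgrPi 𝒪 θ)) = ⊤ ∧
      (∀ χ : 𝕋 →+* 𝒪, (∀ t, residue 𝒪 (χ t) = θ t) →
        ∃ ψ : s59hgrT 𝒪 θ →ₐ[𝒪] 𝒪, ∀ t, ψ (s59hgrPi 𝒪 θ t) = χ t) ∧
      Function.Surjective (residue (s59hgrT 𝒪 θ) ∘ algebraMap 𝒪 (s59hgrT 𝒪 θ)) ∧
      (∀ y : s59hgrT 𝒪 θ, (∀ ψ : s59hgrT 𝒪 θ →ₐ[𝒪] 𝒪, ψ y = 0) → y = 0) := by
  obtain ⟨χ₀, hχ₀⟩ := hX
  haveI : Nonempty (s59hgrX 𝒪 θ) := ⟨⟨χ₀, hχ₀⟩⟩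
  haveI : Finite (s59hgrX 𝒪 θ) := s59hgr_finite_X 𝒪 θ
  haveI hloc := s59hgr_isLocalRing 𝒪 θ
  haveI hlh := s59hgr_isLocalHom 𝒪 θ
  exact ⟨hloc, s59hgr_isNoetherianRing 𝒪 θ, s59hgr_isAdicComplete 𝒪 θ, hlh,
    s59hgr_module_finite 𝒪 θ, s59hgr_module_free 𝒪 θ, s59hgr_residue_pi 𝒪 θ,
    s59hgr_adjoin 𝒪 θ, s59hgr_exists_point 𝒪 θ, s59hgr_residue_surjective 𝒪 θ,
    s59hgr_sep 𝒪 θ⟩

end Main

end Fermat.Agent.S59
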