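/-
S59-HGD, RING half (helper36), instance for the Hecke algebra `CuspForm.heckeAlgebra N 2 S`
(a finitely generated `ℤ`-module by S22).

`s59hgr_main` : if the residual eigensystem `θ` has a lift `χ₀ : 𝕋 →+* 𝒪`, there is a ring `T` with all the
instances asked by `CuspForm.HeckeGaloisRepDatum N S 𝒪 θ T` and `π : 𝕋 →+* T` with the fields
`residue_π`, `adjoin_range_π`, `exists_point`, `residue_surjective` of the datum, such that moreover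
the `𝒪`-points of `T` separate the elements of `T` (second half of `s59p_IsFull`).

`s59hgrDatum` : the datum on the concrete ring `s59hgrT 𝒪 θ`, from a representation `ρ` over it.
-/
import Fermat.Agent.S59.HGD.Ring
import Fermat.Agent.S22.Final
import Fermat.Prelude.Def_CuspForm_HeckeGaloisRepDatum

set_option autoImplicit false

namespace Fermat.Agent.S59

open IsLocalRing Polynomial

section Hecke

variable (𝒪 : Type) [CommRing 𝒪] [IsDomain 𝒪] [IsDiscreteValuationRing 𝒪]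
  [IsAdicComplete (maximalIdeal 𝒪) 𝒪] (N : ℕ) [NeZero N] (S : Set ℕ)
  (θ : CuspForm.heckeAlgebra N 2 S →+* ResidueField 𝒪)

/-- **S59-HGD, the ring half**, existential form. -/
theorem s59hgr_main
    (hX : ∃ χ : CuspForm.heckeAlgebra N 2 S →+* 𝒪, ∀ t, residue 𝒪 (χ t) = θ t) :
    ∃ (T : Type) (_ : CommRing T) (_ : IsLocalRing T) (_ : IsNoetherianRing T)
      (_ : IsAdicComplete (maximalIdeal T) T) (_ : Algebra 𝒪 T)
      (_ : IsLocalHom (algebraMap 𝒪 T)) (_ : Module.Finite 𝒪 T) (_ : Module.Free 𝒪 T)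
      (π : CuspForm.heckeAlgebra N 2 S →+* T),
      (∀ t, residue T (π t) = ResidueField.map (algebraMap 𝒪 T) (θ t)) ∧
      Algebra.adjoin 𝒪 (Set.range π) = ⊤ ∧
      (∀ χ : CuspForm.heckeAlgebra N 2 S →+* 𝒪, (∀ t, residue 𝒪 (χ t) = θ t) →
        ∃ ψ : T →ₐ[𝒪] 𝒪, ∀ t, ψ (π t) = χ t) ∧
      Function.Surjective (residue T ∘ algebraMap 𝒪 T) ∧
      (∀ y : T, (∀ ψ : T →ₐ[𝒪] 𝒪, ψ y = 0) → y = 0) := by
  haveI : Module.Finite ℤ (CuspForm.heckeAlgebra N 2 S) :=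
    Fermat.Agent.S22.moduleFinite_heckeAlgebra N 2 S
  obtain ⟨h1, h2, h3, h4, h5, h6, h7⟩ := s59hgr_main_abs 𝒪 θ hX
  exact ⟨s59hgrT 𝒪 θ, inferInstance, h1, h2, h3, inferInstance, h4, h5, h6, s59hgrPi 𝒪 θ, h7⟩

/-- **the datum on the concrete ring** `s59hgrT 𝒪 θ`, from a representation over it. -/
noncomputable def s59hgrDatum [IsLocalRing (s59hgrT 𝒪 θ)] [IsNoetherianRing (s59hgrT 𝒪 θ)]
    [IsAdicComplete (maximalIdeal (s59hgrT 𝒪 θ)) (s59hgrT 𝒪 θ)]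
    [IsLocalHom (algebraMap 𝒪 (s59hgrT 𝒪 θ))] [Module.Finite 𝒪 (s59hgrT 𝒪 θ)]
    [Module.Free 𝒪 (s59hgrT 𝒪 θ)]
    (hX : ∃ χ : CuspForm.heckeAlgebra N 2 S →+* 𝒪, ∀ t, residue 𝒪 (χ t) = θ t)
    (ρ : GaloisRepAdic (s59hgrT 𝒪 θ))
    (hcp : ∀ (ℓ : ℕ) (hℓ : ℓ.Prime) (hℓN : ¬ ℓ ∣ N) (hℓS : ℓ ∉ S),
      ∀ A : ValuationSubring (AlgebraicClosure ℚ), A.LiesOverPrime ℓ →
        ∀ σ : AlgebraicClosure ℚ ≃ₐ[ℚ] AlgebraicClosure ℚ, A.IsFrobeniusAt σ ℓ →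
          LinearMap.charpoly (ρ.ρ σ) =
            X ^ 2 - C (s59hgrPi 𝒪 θ (CuspForm.heckeAlgebra.T hℓ hℓN hℓS)) * X
              + C ((ℓ : s59hgrT 𝒪 θ)))
    (habs : ρ.residual.IsAbsolutelyIrreducible) :
    CuspForm.HeckeGaloisRepDatum N S 𝒪 θ (s59hgrT 𝒪 θ) :=
  haveI : Module.Finite ℤ (CuspForm.heckeAlgebra N 2 S) :=
    Fermat.Agent.S22.moduleFinite_heckeAlgebra N 2 S
  haveI : Nonempty (s59hgrX 𝒪 θ) := by
    obtain ⟨χ₀, hχ₀⟩ := hX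
    exact ⟨⟨χ₀, hχ₀⟩⟩
  haveI : Finite (s59hgrX 𝒪 θ) := s59hgr_finite_X 𝒪 θ
  { π := s59hgrPi 𝒪 θ
    residue_π := s59hgr_residue_pi 𝒪 θ
    adjoin_range_π := s59hgr_adjoin 𝒪 θ
    exists_point := s59hgr_exists_point 𝒪 θ
    residue_surjective := s59hgr_residue_surjective 𝒪 θ
    ρ := ρ
    charpoly_frob := hcp
    residual_absIrr := habs }

end Hecke

end Fermat.Agent.S59
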