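/-
S59-HGD, RING half (helper36): the interface `S59HgdRing` of `S59/HGD/RingPlan.lean` (helper20) for
the concrete ring `T = s59hgrT 𝒪 θ`, `π = s59hgrPi 𝒪 θ`, and in existential form.
-/
import Fermat.Agent.S59.HGD.RingHecke
import Fermat.Agent.S59.HGD.RingPlan

set_option autoImplicit false

namespace Fermat.Agent.S59

open IsLocalRing

section Inst

variable (𝒪 : Type) [CommRing 𝒪] [IsDomain 𝒪] [IsDiscreteValuationRing 𝒪]
  [IsAdicComplete (maximalIdeal 𝒪) 𝒪] (N : ℕ) [NeZero N] (S : Set ℕ)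
  (θ : CuspForm.heckeAlgebra N 2 S →+* ResidueField 𝒪)

/-- `S59HgdRing` for the concrete ring. -/
theorem s59hgr_ring [IsLocalRing (s59hgrT 𝒪 θ)] [IsLocalHom (algebraMap 𝒪 (s59hgrT 𝒪 θ))]
    (hX : ∃ χ : CuspForm.heckeAlgebra N 2 S →+* 𝒪, ∀ t, residue 𝒪 (χ t) = θ t) :
    S59HgdRing N S 𝒪 θ (s59hgrT 𝒪 θ) (s59hgrPi 𝒪 θ) := by
  haveI : Module.Finite ℤ (CuspForm.heckeAlgebra N 2 S) :=
    Fermat.Agent.S22.moduleFinite_heckeAlgebra N 2 S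
  haveI : Nonempty (s59hgrX 𝒪 θ) := by
    obtain ⟨χ₀, hχ₀⟩ := hX
    exact ⟨⟨χ₀, hχ₀⟩⟩
  haveI : Finite (s59hgrX 𝒪 θ) := s59hgr_finite_X 𝒪 θ
  exact
    { residue_π := s59hgr_residue_pi 𝒪 θ
      adjoin_range_π := s59hgr_adjoin 𝒪 θ
      exists_point := s59hgr_exists_point 𝒪 θ
      residue_surjective := s59hgr_residue_surjective 𝒪 θ }

/-- **S59-HGD, the ring half**, in the form of the interface: a ring `T` with the eight instances,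
`π` with `S59HgdRing`, and the `𝒪`-points of `T` separate. -/
theorem s59hgr_exists_ring
    (hX : ∃ χ : CuspForm.heckeAlgebra N 2 S →+* 𝒪, ∀ t, residue 𝒪 (χ t) = θ t) :
    ∃ (T : Type) (_ : CommRing T) (_ : IsLocalRing T) (_ : IsNoetherianRing T)
      (_ : IsAdicComplete (maximalIdeal T) T) (_ : Algebra 𝒪 T)
      (_ : IsLocalHom (algebraMap 𝒪 T)) (_ : Module.Finite 𝒪 T) (_ : Module.Free 𝒪 T)
      (π : CuspForm.heckeAlgebra N 2 S →+* T),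
      S59HgdRing N S 𝒪 θ T π ∧ (∀ y : T, (∀ ψ : T →ₐ[𝒪] 𝒪, ψ y = 0) → y = 0) := by
  obtain ⟨T, i1, i2, i3, i4, i5, i6, i7, i8, π, h1, h2, h3, h4, h5⟩ := s59hgr_main 𝒪 N S θ hX
  exact ⟨T, i1, i2, i3, i4, i5, i6, i7, i8, π, ⟨h1, h2, h3, h4⟩, h5⟩

end Inst

end Fermat.Agent.S59
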