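/-
S59 / HGD (helper20 + helper36): the FULL Hecke–Galois datum, unconditional form.

`s59hgd_main` : `p` odd, `S ∋ p` a finite set of primes containing the primes dividing `N`,
`θ : heckeAlgebra N 2 S →+* k_𝒪` a residual eigensystem which has ONE lift `χ₀` to `𝒪`, `ρbar` an
absolutely irreducible residual representation over `k_𝒪` with `det ρbar = χ_p mod p` and
`tr ρbar (Frob_ℓ) = θ (T_ℓ)` (`ℓ ∉ S`).  Then there are a ring `T` (with the eight instances of the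
prelude's `CuspForm.HeckeGaloisRepDatum`) and a datum `H : HeckeGaloisRepDatum N S 𝒪 θ T` with

* the `𝒪`-points of `T` separate the elements of `T` (second half of `s59p_IsFull`),
* `H.ρ.DetIsCyclotomic p`,
* `H.ρ.residual ≅ ρbar ⊗ k_T`,
* `H.ρ` unramified at every prime `q ∤ N p`.

(The remaining local conditions — flat / ordinary at `p`, unipotent at `q ∥ N` — are the
frozen-type theorems S32, S33, S34 applied to `H`.)

Ring half: helper36 (`S59/HGD/Ring*.lean`, `T ⊂ 𝒪^X`, `X` = the lifts of `θ`).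
Representation half: helper20 (`S59/HGD/Rep.lean`: `S30.exists_pseudoChar` + K7-GRA).
-/
import Fermat.Agent.S59.HGD.Datum
import Fermat.Agent.S59.HGD.RingInst
import Fermat.Agent.ES.FaithOfInputs
import Fermat.Agent.ES.TorsionUnifProved
import Fermat.Agent.INJ.InjAll
import Fermat.Agent.Cheb.Final

set_option autoImplicit false

namespace Fermat.Agent.S59

open IsLocalRing Polynomial Fermat.Agent.ES Fermat.Agent.S31

/-- the faithful `p`-adic Eichler–Shimura package at every level (unconditional) -/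
theorem s59hgd_pkg (N p : ℕ) [NeZero N] (hp : p.Prime) : ESPkgFaith N p :=
  Fermat.Agent.ES.esPkgFaith_of_inputs Fermat.Agent.INJ.injAll_stmtINJAll hp
    (Fermat.Agent.ES.torsionUnif_proved N p hp.pos)

/-- **HGD, for a given ring package** (unconditional). -/
theorem s59hgd_datum_of_ring (p : ℕ) [Fact p.Prime] (hp2 : p ≠ 2)
    (N : ℕ) [NeZero N] (S : Finset ℕ) (hpS : p ∈ S)
    (hNS : ∀ q : ℕ, q.Prime → q ∣ N → q ∈ S)
    (𝒪 : Type) [CommRing 𝒪] [IsDomain 𝒪] [IsDiscreteValuationRing 𝒪]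
    [IsAdicComplete (maximalIdeal 𝒪) 𝒪] (hp𝒪 : (p : 𝒪) ∈ maximalIdeal 𝒪)
    (θ : CuspForm.heckeAlgebra N 2 (↑S : Set ℕ) →+* ResidueField 𝒪)
    (T : Type) [CommRing T] [IsLocalRing T] [IsNoetherianRing T]
    [IsAdicComplete (maximalIdeal T) T] [Algebra 𝒪 T] [IsLocalHom (algebraMap 𝒪 T)]
    [Module.Finite 𝒪 T] [Module.Free 𝒪 T]
    (π : CuspForm.heckeAlgebra N 2 (↑S : Set ℕ) →+* T)
    (hR : S59HgdRing N (↑S : Set ℕ) 𝒪 θ T π)
    (ρbar : ResidualGaloisRep (ResidueField 𝒪)) (hρ : S59HgdRes p N S 𝒪 θ ρbar) :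
    ∃ H : CuspForm.HeckeGaloisRepDatum N (↑S : Set ℕ) 𝒪 θ T,
      H.π = π ∧ H.ρ.DetIsCyclotomic p ∧
      H.ρ.residual.IsEquiv (ρbar.baseChangeAlong (ResidueField.map (algebraMap 𝒪 T))) ∧
      (∀ q : ℕ, q.Prime → ¬ q ∣ N * p → H.ρ.IsUnramifiedAt q) :=
  s59hgd_datum Cheb.weakChebotarev_holds p hp2 N (s59hgd_pkg N p Fact.out) S hpS hNS 𝒪 hp𝒪 θ T π
    hR ρbar hρ

/-- **HGD** (unconditional): the full Hecke–Galois datum. -/
theorem s59hgd_main (p : ℕ) [Fact p.Prime] (hp2 : p ≠ 2)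
    (N : ℕ) [NeZero N] (S : Finset ℕ) (hpS : p ∈ S)
    (hNS : ∀ q : ℕ, q.Prime → q ∣ N → q ∈ S)
    (𝒪 : Type) [CommRing 𝒪] [IsDomain 𝒪] [IsDiscreteValuationRing 𝒪]
    [IsAdicComplete (maximalIdeal 𝒪) 𝒪] (hp𝒪 : (p : 𝒪) ∈ maximalIdeal 𝒪)
    (θ : CuspForm.heckeAlgebra N 2 (↑S : Set ℕ) →+* ResidueField 𝒪)
    (hX : ∃ χ : CuspForm.heckeAlgebra N 2 (↑S : Set ℕ) →+* 𝒪, ∀ t, residue 𝒪 (χ t) = θ t)
    (ρbar : ResidualGaloisRep (ResidueField 𝒪)) (hρ : S59HgdRes p N S 𝒪 θ ρbar) :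
    ∃ (T : Type) (_ : CommRing T) (_ : IsLocalRing T) (_ : IsNoetherianRing T)
      (_ : IsAdicComplete (maximalIdeal T) T) (_ : Algebra 𝒪 T)
      (_ : IsLocalHom (algebraMap 𝒪 T)) (_ : Module.Finite 𝒪 T) (_ : Module.Free 𝒪 T)
      (H : CuspForm.HeckeGaloisRepDatum N (↑S : Set ℕ) 𝒪 θ T),
      (∀ y : T, (∀ ψ : T →ₐ[𝒪] 𝒪, ψ y = 0) → y = 0) ∧
      H.ρ.DetIsCyclotomic p ∧
      H.ρ.residual.IsEquiv (ρbar.baseChangeAlong (ResidueField.map (algebraMap 𝒪 T))) ∧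
      (∀ q : ℕ, q.Prime → ¬ q ∣ N * p → H.ρ.IsUnramifiedAt q) := by
  obtain ⟨T, i1, i2, i3, i4, i5, i6, i7, i8, π, hR, hsep⟩ :=
    s59hgr_exists_ring 𝒪 N (↑S : Set ℕ) θ hX
  obtain ⟨H, -, h1, h2, h3⟩ :=
    s59hgd_datum_of_ring p hp2 N S hpS hNS 𝒪 hp𝒪 θ T π hR ρbar hρ
  exact ⟨T, i1, i2, i3, i4, i5, i6, i7, i8, H, hsep, h1, h2, h3⟩

end Fermat.Agent.S59
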